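import Mathlib.RingTheory.Depth.Rees

set_option autoImplicit false

universe u

namespace Fermat.Agent.S57Lib

open RingTheory.Sequence IsLocalRing CategoryTheory Abelian

/-- Exchange lemma (via the Rees theorem): if `N` has a regular sequence of length `j + 1` in the
maximal ideal and `x` in the maximal ideal is `N`-regular, then `N ⧸ x N` has a regular sequence of
length `j` in the maximal ideal. -/
theorem exists_isRegular_quotSMulTop
    {R : Type u} [CommRing R] [IsNoetherianRing R] [IsLocalRing R]
    (N : Type u) [AddCommGroup N] [Module R N] [Module.Finite R N]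
    (zs : List R) (hz : IsRegular N zs) (hmem : ∀ z ∈ zs, z ∈ maximalIdeal R)
    (x : R) (hx : x ∈ maximalIdeal R) (hreg : IsSMulRegular N x) (j : ℕ) (hj : zs.length = j + 1) :
    ∃ zs' : List R, zs'.length = j ∧ (∀ z ∈ zs', z ∈ maximalIdeal R) ∧
      IsRegular (QuotSMulTop x N) zs' := by
  have hNnt : Nontrivial N := hz.nontrivial
  let k : ModuleCat.{u} R := ModuleCat.of R (R ⧸ maximalIdeal R)
  let M : ModuleCat.{u} R := ModuleCat.of R N
  let M' : ModuleCat.{u} R := ModuleCat.of R (QuotSMulTop x N)
  have hsupp : Module.support R k = PrimeSpectrum.zeroLocus (maximalIdeal R) := by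
    change Module.support R (R ⧸ maximalIdeal R) = _
    rw [Module.support_eq_zeroLocus, Ideal.annihilator_quotient]
  have smul_lt : maximalIdeal R • (⊤ : Submodule R M) < ⊤ := by
    refine lt_of_le_of_ne le_top ?_
    intro h
    have : (⊤ : Submodule R N) = ⊥ :=
      Submodule.eq_bot_of_le_smul_of_le_jacobson_bot (maximalIdeal R) ⊤ Module.Finite.fg_top
        (le_of_eq h.symm) (by rw [IsLocalRing.jacobson_eq_maximalIdeal ⊥ bot_ne_top])
    exact top_ne_bot this
  have h1 : ∀ i < zs.length, Subsingleton (Ext k M i) :=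
    ModuleCat.subsingleton_ext_of_exists_isRegular (maximalIdeal R) k hsupp.subset M smul_lt zs
      hmem hz
  have hreg' : IsSMulRegular M x := hreg
  have hSE : (ModuleCat.smulShortComplex M x).ShortExact := hreg'.smulShortComplex_shortExact
  have h2 : ∀ i < j, Subsingleton (Ext k (ModuleCat.of R (QuotSMulTop x M)) i) := by
    intro i hi
    have zero1 := AddCommGrpCat.isZero_of_iff_subsingleton.mpr (h1 i (by omega))
    have zero2 := AddCommGrpCat.isZero_of_iff_subsingleton.mpr (h1 (i + 1) (by omega))
    exact AddCommGrpCat.subsingleton_of_isZero <| ShortComplex.Exact.isZero_of_both_zeros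
      ((Ext.covariant_sequence_exact₃' k hSE) i (i + 1) rfl)
      (zero1.eq_zero_of_src _) (zero2.eq_zero_of_tgt _)
  have hnt' : Nontrivial (QuotSMulTop x N) := by
    apply Submodule.Quotient.nontrivial_iff.mpr
    intro h
    have h' : (⊤ : Submodule R N) ≤ Ideal.span {x} • ⊤ := by
      rw [Submodule.ideal_span_singleton_smul]; exact le_of_eq h.symm
    have : (⊤ : Submodule R N) = ⊥ :=
      Submodule.eq_bot_of_le_smul_of_le_jacobson_bot (Ideal.span {x}) ⊤ Module.Finite.fg_top h'
        (by rw [IsLocalRing.jacobson_eq_maximalIdeal ⊥ bot_ne_top,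
              Ideal.span_singleton_le_iff_mem]; exact hx)
    exact top_ne_bot this
  have smul_lt' : maximalIdeal R • (⊤ : Submodule R M') < ⊤ := by
    refine lt_of_le_of_ne le_top ?_
    intro h
    have : (⊤ : Submodule R (QuotSMulTop x N)) = ⊥ :=
      Submodule.eq_bot_of_le_smul_of_le_jacobson_bot (maximalIdeal R) ⊤ Module.Finite.fg_top
        (le_of_eq h.symm) (by rw [IsLocalRing.jacobson_eq_maximalIdeal ⊥ bot_ne_top])
    exact top_ne_bot this
  obtain ⟨rs, hlen, hrs, hregrs⟩ :=
    ModuleCat.exists_isRegular_of_exists_subsingleton_ext (maximalIdeal R) j M' smul_lt' k hsupp h2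
  exact ⟨rs, hlen, hrs, hregrs⟩

end Fermat.Agent.S57Lib
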