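import Fermat.Agent.S57Lib.DepthDim
import Fermat.Agent.S57Lib.Exchange
import Mathlib.RingTheory.Regular.Free
import Mathlib.RingTheory.LocalRing.Module
import Mathlib.RingTheory.LocalRing.Quotient

set_option autoImplicit false

universe u

namespace Fermat.Agent.S57Lib

open RingTheory.Sequence IsLocalRing

/-- If `dim R/(x) ≤ n` and `N` has a weakly regular sequence of length `n + 1` in the maximal
ideal, then `x` is `N`-regular. -/
theorem isSMulRegular_of_ringKrullDim_quotient_le
    {R : Type u} [CommRing R] [IsNoetherianRing R] [IsLocalRing R] (x : R) (n : ℕ)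
    (hdim : ringKrullDim (R ⧸ Ideal.span {x}) ≤ (n : WithBot ℕ∞))
    (N : Type u) [AddCommGroup N] [Module R N] [Module.Finite R N]
    (zs : List R) (hz : IsWeaklyRegular N zs) (hmem : ∀ z ∈ zs, z ∈ maximalIdeal R)
    (hlen : zs.length = n + 1) : IsSMulRegular N x := by
  intro u v huv
  by_contra hne
  have hw : u - v ≠ 0 := sub_ne_zero.mpr hne
  have hxw : x • (u - v) = 0 := by
    rw [smul_sub]; exact sub_eq_zero.mpr huv
  have hle : Ideal.span {x} ≤ Ideal.torsionOf R N (u - v) := by
    rw [Ideal.span_singleton_le_iff_mem, Ideal.mem_torsionOf_iff]; exact hxw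
  have h1 := length_le_ringKrullDim_quotient_torsionOf zs N hz hmem (u - v) hw
  have h2 : ringKrullDim (R ⧸ Ideal.torsionOf R N (u - v)) ≤ ringKrullDim (R ⧸ Ideal.span {x}) :=
    ringKrullDim_le_of_surjective (Ideal.Quotient.factor hle)
      (Ideal.Quotient.factor_surjective hle)
  have h3 : ((n + 1 : ℕ) : WithBot ℕ∞) ≤ (n : WithBot ℕ∞) := by
    rw [← hlen]; exact h1.trans (h2.trans hdim)
  have h4 : (n + 1 : ℕ) ≤ n := by exact_mod_cast h3
  omega

/-- A finitely generated module over a local ring whose maximal ideal is zero is free. -/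
theorem free_of_maximalIdeal_eq_bot
    {R : Type u} [CommRing R] [IsLocalRing R] (h : maximalIdeal R = ⊥)
    (N : Type u) [AddCommGroup N] [Module R N] : Module.Free R N := by
  have hF : IsField R := IsLocalRing.isField_iff_maximalIdeal_eq.mpr h
  let _ := hF.toField
  exact Module.Free.of_divisionRing R N

end Fermat.Agent.S57Lib

namespace Fermat.Agent.S57Lib

open RingTheory.Sequence IsLocalRing Pointwise

theorem map_mk_maximalIdeal_eq
    {R : Type u} [CommRing R] [IsLocalRing R] (I : Ideal R) (hI : I ≠ ⊤)
    [IsLocalRing (R ⧸ I)] :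
    (maximalIdeal R).map (Ideal.Quotient.mk I) = maximalIdeal (R ⧸ I) := by
  have := IsLocalHom.of_surjective (Ideal.Quotient.mk I) Ideal.Quotient.mk_surjective
  ext x
  obtain ⟨x, rfl⟩ := Ideal.Quotient.mk_surjective x
  simp [sup_eq_left.mpr (le_maximalIdeal hI)]

theorem spanFinrank_ofList_le {R : Type u} [CommRing R] (l : List R) :
    (Ideal.ofList l).spanFinrank ≤ l.length := by
  classical
  have hfin : ({r | r ∈ l} : Set R).Finite := List.finite_toSet l
  refine le_trans (Submodule.spanFinrank_span_le_ncard_of_finite hfin) ?_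
  have : ({r | r ∈ l} : Set R) = (l.toFinset : Set R) := by ext; simp
  rw [this, Set.ncard_coe_finset]
  exact List.toFinset_card_le l

/-- **Maximal Cohen–Macaulay modules over a regular local ring are free**, in the following
form: if the maximal ideal of the Noetherian local ring `R` is generated by an `R`-regular sequence
of length `n` and the finitely generated module `N` has an `N`-regular sequence of length `n`,
then `N` is free. -/
theorem free_of_isRegular_of_length_eq (n : ℕ) :
    ∀ (R : Type u) [CommRing R] [IsNoetherianRing R] [IsLocalRing R] (xs : List R),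
      xs.length = n → IsRegular R xs → Ideal.ofList xs = maximalIdeal R →
      ∀ (N : Type u) [AddCommGroup N] [Module R N] [Module.Finite R N] (zs : List R),
        zs.length = n → IsRegular N zs → (∀ z ∈ zs, z ∈ maximalIdeal R) → Module.Free R N := by
  induction n with
  | zero =>
    intro R _ _ _ xs hlen _ hmax N _ _ _ _ _ _ _
    have : xs = [] := List.length_eq_zero_iff.mp hlen
    subst this
    rw [Ideal.ofList_nil] at hmax
    exact free_of_maximalIdeal_eq_bot hmax.symm N
  | succ n ih =>
    intro R _ _ _ xs hlen hxs hmax N _ _ _ zs hzlen hzs hzmem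
    match xs, hlen, hxs, hmax with
    | [], hlen, _, _ => simp at hlen
    | x :: xs', hlen, hxs, hmax =>
      obtain ⟨hxR, hxs'R⟩ := (isRegular_cons_iff R x xs').mp hxs
      have hxm : x ∈ maximalIdeal R := by
        rw [← hmax]; exact Ideal.subset_span List.mem_cons_self
      have hne : Ideal.span {x} ≠ ⊤ := by
        intro h
        have : (1 : R) ∈ maximalIdeal R := by
          have h1 : (1 : R) ∈ Ideal.span {x} := by rw [h]; trivial
          exact (Ideal.span_singleton_le_iff_mem (I := maximalIdeal R)).mpr hxm h1
        exact (Ideal.ne_top_iff_one _).mp (IsLocalRing.maximalIdeal.isMaximal R).ne_top this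
      have : Nontrivial (R ⧸ Ideal.span {x}) := Ideal.Quotient.nontrivial_iff.mpr hne
      have : IsLocalRing (R ⧸ Ideal.span {x}) :=
        IsLocalRing.of_surjective' (Ideal.Quotient.mk _) Ideal.Quotient.mk_surjective
      have hmapmax := map_mk_maximalIdeal_eq (Ideal.span {x}) hne
      have hmax' : Ideal.ofList (xs'.map (Ideal.Quotient.mk (Ideal.span {x}))) =
          maximalIdeal (R ⧸ Ideal.span {x}) := by
        rw [← hmapmax, ← hmax, Ideal.map_ofList, List.map_cons, Ideal.ofList_cons]
        have : Ideal.Quotient.mk (Ideal.span {x}) x = 0 :=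
          Ideal.Quotient.eq_zero_iff_mem.mpr (Ideal.mem_span_singleton_self x)
        rw [this]
        simp
      -- the regular sequence on `R ⧸ (x)`
      have hsmul : x • (⊤ : Submodule R R) = Ideal.span {x} := by
        rw [← Submodule.ideal_span_singleton_smul]
        exact Ideal.mul_top _
      let e : QuotSMulTop x R ≃ₗ[R] (R ⧸ Ideal.span {x}) :=
        Submodule.quotEquivOfEq _ _ hsmul
      have hreg' : IsRegular (R ⧸ Ideal.span {x})
          (xs'.map (Ideal.Quotient.mk (Ideal.span {x}))) := by
        refine (e.toAddEquiv.isRegular_congr ?_).mp hxs'R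
        refine List.forall₂_map_right_iff.mpr <| List.forall₂_same.mpr fun r _ y => ?_
        change e (r • y) = Ideal.Quotient.mk (Ideal.span {x}) r • e y
        rw [map_smul]
        rfl
      -- dimension bound
      have hdim : ringKrullDim (R ⧸ Ideal.span {x}) ≤ (n : WithBot ℕ∞) := by
        refine le_trans (ringKrullDim_le_spanFinrank_maximalIdeal (R ⧸ Ideal.span {x})) ?_
        rw [← hmax']
        have h1 := spanFinrank_ofList_le (xs'.map (Ideal.Quotient.mk (Ideal.span {x})))
        have h2 : (xs'.map (Ideal.Quotient.mk (Ideal.span {x}))).length = n := by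
          simpa using hlen
        rw [h2] at h1
        exact_mod_cast h1
      -- `x` is `N`-regular
      have hxN : IsSMulRegular N x :=
        isSMulRegular_of_ringKrullDim_quotient_le x n hdim N zs hzs.toIsWeaklyRegular hzmem hzlen
      -- pass to the quotient
      obtain ⟨zs', hzs'len, hzs'mem, hzs'reg⟩ :=
        exists_isRegular_quotSMulTop N zs hzs hzmem x hxm hxN n hzlen
      have : Module.Finite (R ⧸ Ideal.span {x}) (QuotSMulTop x N) :=
        Module.Finite.of_restrictScalars_finite R (R ⧸ Ideal.span {x}) (QuotSMulTop x N)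
      have hzs'reg' : IsRegular (QuotSMulTop x N)
          (zs'.map (Ideal.Quotient.mk (Ideal.span {x}))) := by
        refine ((AddEquiv.refl (QuotSMulTop x N)).isRegular_congr ?_).mp hzs'reg
        refine List.forall₂_map_right_iff.mpr <| List.forall₂_same.mpr fun r _ y => ?_
        rfl
      have hzs'mem' : ∀ z ∈ zs'.map (Ideal.Quotient.mk (Ideal.span {x})),
          z ∈ maximalIdeal (R ⧸ Ideal.span {x}) := by
        intro z hz
        obtain ⟨w, hw, rfl⟩ := List.mem_map.mp hz
        rw [← hmapmax]
        exact Ideal.mem_map_of_mem _ (hzs'mem w hw)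
      have hfree : Module.Free (R ⧸ Ideal.span {x}) (QuotSMulTop x N) :=
        ih (R ⧸ Ideal.span {x}) (xs'.map (Ideal.Quotient.mk (Ideal.span {x})))
          (by simpa using hlen) hreg' hmax' (QuotSMulTop x N)
          (zs'.map (Ideal.Quotient.mk (Ideal.span {x}))) (by simpa using hzs'len) hzs'reg' hzs'mem'
      have hjac : x ∈ (⊥ : Ideal R).jacobson := by
        rw [IsLocalRing.jacobson_eq_maximalIdeal ⊥ bot_ne_top]; exact hxm
      have : Module.FinitePresentation R N := Module.finitePresentation_of_finite R N
      exact (Module.free_quotSMulTop_iff_free R N hjac hxN).mp hfree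

end Fermat.Agent.S57Lib
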