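import Mathlib.RingTheory.Regular.RegularSequence
import Mathlib.RingTheory.MvPowerSeries.Equiv
import Mathlib.RingTheory.PowerSeries.Inverse
import Mathlib.RingTheory.PowerSeries.Ideal
import Mathlib.RingTheory.DiscreteValuationRing.Basic

set_option autoImplicit false

universe u

namespace Fermat.Agent.S57Lib

open RingTheory.Sequence IsLocalRing Pointwise

/-- The maximal ideal of the local ring `A` is generated by an `A`-regular sequence of
length `n`. -/
def HasRegParams (A : Type u) [CommRing A] [IsLocalRing A] (n : ℕ) : Prop :=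
  ∃ xs : List A, xs.length = n ∧ IsRegular A xs ∧ Ideal.ofList xs = maximalIdeal A

theorem hasRegParams_of_isDiscreteValuationRing
    (𝒪 : Type u) [CommRing 𝒪] [IsDomain 𝒪] [IsDiscreteValuationRing 𝒪] : HasRegParams 𝒪 1 := by
  obtain ⟨ϖ, hϖ⟩ := IsDiscreteValuationRing.exists_irreducible 𝒪
  refine ⟨[ϖ], rfl, ?_, ?_⟩
  · have hmem : ∀ r ∈ [ϖ], r ∈ maximalIdeal 𝒪 := by
      intro r hr
      rw [List.mem_singleton] at hr
      subst hr
      rw [hϖ.maximalIdeal_eq]
      exact Ideal.mem_span_singleton_self r
    refine IsRegular.of_isWeaklyRegular_of_mem_maximalIdeal 𝒪 hmem ?_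
    rw [isWeaklyRegular_cons_iff]
    refine ⟨?_, IsWeaklyRegular.nil _ _⟩
    intro a b hab
    exact mul_left_cancel₀ hϖ.ne_zero hab
  · rw [Ideal.ofList_singleton, hϖ.maximalIdeal_eq]

theorem hasRegParams_of_ringEquiv {A B : Type u} [CommRing A] [IsLocalRing A] [CommRing B]
    [IsLocalRing B] (e : A ≃+* B) (n : ℕ) (h : HasRegParams A n) : HasRegParams B n := by
  obtain ⟨xs, hlen, hreg, hmax⟩ := h
  refine ⟨xs.map e, by simpa using hlen, ?_, ?_⟩
  · refine (e.toAddEquiv.isRegular_congr ?_).mp hreg
    refine List.forall₂_map_right_iff.mpr <| List.forall₂_same.mpr fun r _ y => ?_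
    simp
  · have hmap : Ideal.ofList (xs.map e) = (Ideal.ofList xs).map (e : A →+* B) :=
      (Ideal.map_ofList (e : A →+* B) xs).symm
    rw [hmap, hmax]
    refine le_antisymm ?_ ?_
    · rw [Ideal.map_le_iff_le_comap]
      intro a ha
      rw [Ideal.mem_comap]
      rw [mem_maximalIdeal, mem_nonunits_iff] at ha ⊢
      intro hu
      exact ha ((isUnit_map_iff e a).mp hu)
    · intro b hb
      have hb' : e.symm b ∈ maximalIdeal A := by
        rw [mem_maximalIdeal, mem_nonunits_iff] at hb ⊢
        intro hu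
        exact hb (by simpa using hu.map e)
      have := Ideal.mem_map_of_mem (e : A →+* B) hb'
      simpa using this

theorem hasRegParams_powerSeries {A : Type u} [CommRing A] [IsLocalRing A] (n : ℕ)
    (h : HasRegParams A n) : HasRegParams (PowerSeries A) (n + 1) := by
  obtain ⟨xs, hlen, hreg, hmax⟩ := h
  have hXmem : (PowerSeries.X : PowerSeries A) ∈ maximalIdeal (PowerSeries A) := by
    rw [mem_maximalIdeal, mem_nonunits_iff, PowerSeries.isUnit_iff_constantCoeff]
    simp
  have hCmem : ∀ a ∈ maximalIdeal A, PowerSeries.C a ∈ maximalIdeal (PowerSeries A) := by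
    intro a ha
    rw [mem_maximalIdeal, mem_nonunits_iff, PowerSeries.isUnit_iff_constantCoeff]
    simpa using ha
  have hmapC : Ideal.ofList (xs.map (PowerSeries.C (R := A))) =
      (maximalIdeal A).map (PowerSeries.C (R := A)) := by
    rw [← hmax]
    exact (Ideal.map_ofList (PowerSeries.C (R := A)) xs).symm
  refine ⟨PowerSeries.X :: xs.map PowerSeries.C, by simp [hlen], ?_, ?_⟩
  · have hmem : ∀ r ∈ PowerSeries.X :: xs.map (PowerSeries.C (R := A)),
        r ∈ maximalIdeal (PowerSeries A) := by
      intro r hr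
      rcases List.mem_cons.mp hr with rfl | hr
      · exact hXmem
      · obtain ⟨a, ha, rfl⟩ := List.mem_map.mp hr
        apply hCmem
        rw [← hmax]
        exact Ideal.subset_span ha
    refine IsRegular.of_isWeaklyRegular_of_mem_maximalIdeal (PowerSeries A) hmem ?_
    rw [isWeaklyRegular_cons_iff]
    refine ⟨fun a b hab => PowerSeries.X_mul_cancel hab, ?_⟩
    -- the constant coefficient induces an additive equivalence `A⟦X⟧ ⧸ X • ⊤ ≃+ A`
    let f : PowerSeries A →ₛₗ[PowerSeries.constantCoeff (R := A)] A :=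
      (PowerSeries.constantCoeff (R := A)).toSemilinearMap
    have hfker : ∀ g : PowerSeries A, f g = 0 ↔
        g ∈ (PowerSeries.X : PowerSeries A) • (⊤ : Submodule (PowerSeries A) (PowerSeries A)) := by
      intro g
      change PowerSeries.constantCoeff g = 0 ↔ _
      rw [← PowerSeries.X_dvd_iff, Submodule.mem_smul_pointwise_iff_exists]
      constructor
      · rintro ⟨g', rfl⟩
        exact ⟨g', trivial, rfl⟩
      · rintro ⟨g', -, rfl⟩
        exact ⟨g', rfl⟩
    have hle : (PowerSeries.X : PowerSeries A) • (⊤ : Submodule (PowerSeries A) (PowerSeries A)) ≤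
        LinearMap.ker f := fun g hg => LinearMap.mem_ker.mpr ((hfker g).mpr hg)
    let F := Submodule.liftQ _ f hle
    have hFinj : Function.Injective F := by
      rw [← LinearMap.ker_eq_bot]
      exact Submodule.ker_liftQ_eq_bot _ f hle
        (fun g hg => (hfker g).mp (LinearMap.mem_ker.mp hg))
    have hFsurj : Function.Surjective F := by
      intro a
      refine ⟨Submodule.Quotient.mk (PowerSeries.C a), ?_⟩
      change PowerSeries.constantCoeff (PowerSeries.C a) = a
      simp
    let e : QuotSMulTop (PowerSeries.X : PowerSeries A) (PowerSeries A) ≃+ A :=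
      AddEquiv.ofBijective F.toAddMonoidHom ⟨hFinj, hFsurj⟩
    refine (e.isWeaklyRegular_congr ?_).mpr hreg.toIsWeaklyRegular
    refine List.forall₂_map_left_iff.mpr <| List.forall₂_same.mpr fun r _ y => ?_
    change F (PowerSeries.C r • y) = r • F y
    rw [map_smulₛₗ]
    simp
  · rw [Ideal.ofList_cons, hmapC]
    refine le_antisymm ?_ ?_
    · refine sup_le ((Ideal.span_singleton_le_iff_mem _).mpr hXmem) ?_
      rw [Ideal.map_le_iff_le_comap]
      exact fun a ha => hCmem a ha
    · intro g hg
      have ha : PowerSeries.constantCoeff g ∈ maximalIdeal A := by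
        rw [mem_maximalIdeal, mem_nonunits_iff] at hg ⊢
        rwa [PowerSeries.isUnit_iff_constantCoeff] at hg
      rw [PowerSeries.eq_X_mul_shift_add_const g]
      refine Ideal.add_mem _ (Ideal.mem_sup_left ?_) (Ideal.mem_sup_right ?_)
      · exact Ideal.mul_mem_right _ _ (Ideal.mem_span_singleton_self _)
      · exact Ideal.mem_map_of_mem _ ha

theorem hasRegParams_mvPowerSeries
    (𝒪 : Type u) [CommRing 𝒪] [IsDomain 𝒪] [IsDiscreteValuationRing 𝒪] (r : ℕ) :
    HasRegParams (MvPowerSeries (Fin r) 𝒪) (r + 1) := by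
  induction r with
  | zero =>
    exact hasRegParams_of_ringEquiv (MvPowerSeries.isEmptyEquiv (Fin 0) 𝒪).toRingEquiv.symm 1
      (hasRegParams_of_isDiscreteValuationRing 𝒪)
  | succ r ih =>
    exact hasRegParams_of_ringEquiv (MvPowerSeries.finSuccEquiv 𝒪 r).toRingEquiv.symm (r + 1 + 1)
      (hasRegParams_powerSeries (r + 1) ih)

end Fermat.Agent.S57Lib
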