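import Mathlib.RingTheory.Regular.RegularSequence
import Mathlib.RingTheory.KrullDimension.NonZeroDivisors
import Mathlib.RingTheory.Ideal.KrullsHeightTheorem
import Mathlib.RingTheory.Nakayama
import Mathlib.Algebra.Module.Torsion.Basic

set_option autoImplicit false

universe u

namespace Fermat.Agent.S57Lib

open RingTheory.Sequence IsLocalRing

/-- Depth lemma: if `N` has a weakly regular sequence of length `j` inside the maximal ideal,
then for every nonzero `u : N` the ring `R ⧸ Ann(u)` has Krull dimension at least `j`. -/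
theorem length_le_ringKrullDim_quotient_torsionOf
    {R : Type u} [CommRing R] [IsNoetherianRing R] [IsLocalRing R] (zs : List R) :
    ∀ (N : Type u) [AddCommGroup N] [Module R N] [Module.Finite R N],
      IsWeaklyRegular N zs → (∀ z ∈ zs, z ∈ maximalIdeal R) →
      ∀ u : N, u ≠ 0 → (zs.length : WithBot ℕ∞) ≤ ringKrullDim (R ⧸ Ideal.torsionOf R N u) := by
  induction zs with
  | nil =>
    intro N _ _ _ _ _ u hu
    have hne : Ideal.torsionOf R N u ≠ ⊤ := by
      rw [Ne, Ideal.torsionOf_eq_top_iff]; exact hu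
    have : Nontrivial (R ⧸ Ideal.torsionOf R N u) := Ideal.Quotient.nontrivial_iff.mpr hne
    simpa using ringKrullDim_nonneg_of_nontrivial (R := R ⧸ Ideal.torsionOf R N u)
  | cons z zs ih =>
    intro N _ _ _ hreg hmem u hu
    rw [isWeaklyRegular_cons_iff] at hreg
    obtain ⟨hz, hzs⟩ := hreg
    have hzm : z ∈ maximalIdeal R := hmem z List.mem_cons_self
    set 𝔞 := Ideal.torsionOf R N u with h𝔞
    -- the submodule of elements killed by `𝔞`
    let U : Submodule R N := Submodule.torsionBySet R N (𝔞 : Set R)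
    have huU : u ∈ U := by
      rw [Submodule.mem_torsionBySet_iff]
      rintro ⟨a, ha⟩
      exact (Ideal.mem_torsionOf_iff u a).mp ha
    have hUne : U ≠ ⊥ := fun h => hu (by simpa [h] using huU)
    have hUfg : U.FG := IsNoetherian.noetherian U
    have hnot : ¬ U ≤ Ideal.span {z} • U := by
      intro hle
      apply hUne
      refine Submodule.eq_bot_of_le_smul_of_le_jacobson_bot (Ideal.span {z}) U hUfg hle ?_
      rw [IsLocalRing.jacobson_eq_maximalIdeal ⊥ bot_ne_top, Ideal.span_singleton_le_iff_mem]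
      exact hzm
    obtain ⟨u', hu'U, hu'⟩ := SetLike.not_le_iff_exists.mp hnot
    -- `u'` is not in `z N`
    have hu'z : (Submodule.Quotient.mk u' : QuotSMulTop z N) ≠ 0 := by
      intro h0
      rw [Submodule.Quotient.mk_eq_zero] at h0
      obtain ⟨v, -, hv⟩ := (Submodule.mem_smul_pointwise_iff_exists _ _ _).mp h0
      apply hu'
      have hvU : v ∈ U := by
        rw [Submodule.mem_torsionBySet_iff]
        rintro ⟨a, ha⟩
        apply hz
        have : a • u' = 0 := (Submodule.mem_torsionBySet_iff _ _).mp hu'U ⟨a, ha⟩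
        simp only [smul_zero]
        rw [smul_comm, hv]
        exact this
      rw [← hv]
      exact Submodule.smul_mem_smul (Ideal.mem_span_singleton_self z) hvU
    set 𝔟 := Ideal.torsionOf R (QuotSMulTop z N) (Submodule.Quotient.mk u') with h𝔟
    have hle : 𝔞 ⊔ Ideal.span {z} ≤ 𝔟 := by
      refine sup_le ?_ ?_
      · intro a ha
        rw [h𝔟, Ideal.mem_torsionOf_iff, ← Submodule.Quotient.mk_smul]
        have : a • u' = 0 := (Submodule.mem_torsionBySet_iff _ _).mp hu'U ⟨a, ha⟩
        rw [this, Submodule.Quotient.mk_zero]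
      · rw [Ideal.span_singleton_le_iff_mem, h𝔟, Ideal.mem_torsionOf_iff,
          ← Submodule.Quotient.mk_smul, Submodule.Quotient.mk_eq_zero]
        exact Submodule.smul_mem_pointwise_smul u' z ⊤ Submodule.mem_top
    have ih' := ih (QuotSMulTop z N) hzs (fun w hw => hmem w (List.mem_cons_of_mem _ hw))
      (Submodule.Quotient.mk u') hu'z
    have h1 : ringKrullDim (R ⧸ 𝔟) ≤ ringKrullDim (R ⧸ (𝔞 ⊔ Ideal.span {z})) :=
      ringKrullDim_le_of_surjective (Ideal.Quotient.factor hle)
        (Ideal.Quotient.factor_surjective hle)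
    have hnzd : (Ideal.Quotient.mk 𝔞 z) ∈ nonZeroDivisors (R ⧸ 𝔞) := by
      rw [mem_nonZeroDivisors_iff_right]
      intro y hy
      obtain ⟨a, rfl⟩ := Ideal.Quotient.mk_surjective y
      rw [← map_mul, Ideal.Quotient.eq_zero_iff_mem, h𝔞, Ideal.mem_torsionOf_iff] at hy
      rw [Ideal.Quotient.eq_zero_iff_mem, h𝔞, Ideal.mem_torsionOf_iff]
      apply hz
      simp only [smul_zero]
      rw [← mul_smul, mul_comm]
      exact hy
    have h2 : ringKrullDim (R ⧸ (𝔞 ⊔ Ideal.span {z})) + 1 ≤ ringKrullDim (R ⧸ 𝔞) := by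
      refine ringKrullDim_succ_le_of_surjective
        (Ideal.Quotient.factor (le_sup_left : 𝔞 ≤ 𝔞 ⊔ Ideal.span {z}))
        (Ideal.Quotient.factor_surjective _) hnzd ?_
      rw [Ideal.Quotient.factor_mk, Ideal.Quotient.eq_zero_iff_mem]
      exact Ideal.mem_sup_right (Ideal.mem_span_singleton_self z)
    calc ((z :: zs).length : WithBot ℕ∞) = (zs.length : WithBot ℕ∞) + 1 := by
          simp
      _ ≤ ringKrullDim (R ⧸ 𝔟) + 1 := by gcongr
      _ ≤ ringKrullDim (R ⧸ (𝔞 ⊔ Ideal.span {z})) + 1 := by gcongr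
      _ ≤ ringKrullDim (R ⧸ 𝔞) := h2

end Fermat.Agent.S57Lib
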